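import Mathlib
import Fermat.Agent.S14.B.HerbrandIdx

/-!
# W3-PT, leaf group PT-UNITS, module U2: the abstract rank formula for Herbrand quotients

Let `p` be a prime and `M` a finitely generated abelian group with an endomorphism `s` such that
`s ^ p = 1`.  With `a = rank (ker (s - 1))` there is `b` such that

* `rank M = a + (p - 1) * b`, and
* the Herbrand quotient `h0 / h1` of `(M, s)` is defined and equal to `p ^ a / p ^ b`

(`SU_rank_formula`).  The Herbrand quotient is the one of `Fermat.Agent.S14.HQ` (`IsHQ`).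

Ingredients: `SU_hq_one` (trivial action, `q = p ^ rank`), `SU_hq_nrm` (`Nm = 0`, i.e. a module
over `ℤ[ζ_p]`: `rank = (p - 1) * b`, `q = p ^ (-b)`), `SU_hq_tors_iff` (the torsion does not
matter), and the polynomial identities `SU_poly_congr`, `SU_poly_unit`.
-/

set_option autoImplicit false

namespace Fermat.Agent.PT.Units

open Module Fermat.Agent.S14.HQ

section Poly

open Polynomial

/-- `(X - 1)^(p-1) ≡ 1 + X + ⋯ + X^(p-1)` modulo `p`. -/
theorem SU_poly_congr (p : ℕ) [hp : Fact p.Prime] :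
    ∃ G : ℤ[X], (X - 1) ^ (p - 1) = C (p : ℤ) * G + ∑ i ∈ Finset.range p, X ^ i := by
  have hmap : Polynomial.map (Int.castRingHom (ZMod p))
      ((X - 1) ^ (p - 1) - ∑ i ∈ Finset.range p, X ^ i) = 0 := by
    have hX : (X - 1 : (ZMod p)[X]) ≠ 0 := X_sub_C_ne_zero (1 : ZMod p)
    apply mul_right_cancel₀ hX
    rw [zero_mul]
    simp only [Polynomial.map_sub, Polynomial.map_pow, Polynomial.map_X, Polynomial.map_one,
      Polynomial.map_sum]
    rw [sub_mul, ← pow_succ, Nat.sub_add_cancel hp.out.one_le, geom_sum_mul, sub_pow_char,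
      one_pow, sub_self]
  have hdvd : C (p : ℤ) ∣ (X - 1) ^ (p - 1) - ∑ i ∈ Finset.range p, X ^ i := by
    rw [Polynomial.C_dvd_iff_dvd_coeff]
    intro i
    have := congrArg (fun q => q.coeff i) hmap
    simp only [Polynomial.coeff_map, Polynomial.coeff_zero] at this
    exact (ZMod.intCast_zmod_eq_zero_iff_dvd _ _).1 this
  obtain ⟨G, hG⟩ := hdvd
  exact ⟨G, by rw [← hG]; ring⟩

/-- The cofactor `G` is a unit modulo `Φ_p = 1 + X + ⋯ + X^(p-1)`. -/
theorem SU_poly_unit (p : ℕ) [hp : Fact p.Prime] :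
    ∃ G G' W : ℤ[X], (X - 1) ^ (p - 1) = C (p : ℤ) * G + ∑ i ∈ Finset.range p, X ^ i ∧
      G * G' = 1 + W * ∑ i ∈ Finset.range p, X ^ i := by
  obtain ⟨G, hG⟩ := SU_poly_congr p
  -- `G(1) = -1`
  have h1 : G.eval 1 = -1 := by
    have := congrArg (Polynomial.eval (1 : ℤ)) hG
    simp only [eval_pow, eval_sub, eval_X, eval_one, sub_self, eval_add, eval_mul, eval_C,
      eval_finsetSum, one_pow, Finset.sum_const, Finset.card_range, nsmul_eq_mul, mul_one] at this
    have hp0 : (p : ℤ) ≠ 0 := by exact_mod_cast hp.out.ne_zero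
    rw [zero_pow (Nat.sub_ne_zero_of_lt hp.out.one_lt)] at this
    have : (p : ℤ) * (G.eval 1 + 1) = 0 := by linarith
    rcases mul_eq_zero.1 this with h | h
    · exact absurd h hp0
    · linarith
  obtain ⟨H, hH⟩ : (X - C (1 : ℤ)) ∣ G - C (G.eval 1) := Polynomial.X_sub_C_dvd_sub_C_eval
  rw [h1] at hH
  have hGH : G = -(1 - (X - 1) * H) := by
    have : G = (X - C 1) * H + C (-1) := by rw [← hH]; ring
    rw [this]; simp only [map_one, map_neg]; ring
  set Y : ℤ[X] := (X - 1) * H with hY
  refine ⟨G, -(∑ j ∈ Finset.range (p - 1), Y ^ j) + C (p : ℤ) * H ^ (p - 1), -H ^ (p - 1), hG, ?_⟩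
  have hgeom : (1 - Y) * ∑ j ∈ Finset.range (p - 1), Y ^ j = 1 - Y ^ (p - 1) := by
    have := mul_neg_geom_sum Y (p - 1)
    exact this
  have hYp : Y ^ (p - 1) = (C (p : ℤ) * G + ∑ i ∈ Finset.range p, X ^ i) * H ^ (p - 1) := by
    rw [hY, mul_pow, hG]
  have e1 : G * (-(∑ j ∈ Finset.range (p - 1), Y ^ j) + C (p : ℤ) * H ^ (p - 1)) =
      (1 - Y) * (∑ j ∈ Finset.range (p - 1), Y ^ j) + G * (C (p : ℤ) * H ^ (p - 1)) := by
    rw [mul_add]
    congr 1
    rw [hGH]
    ring
  rw [e1, hgeom, hYp]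
  ring

end Poly

section Det

open Polynomial

/-- arithmetic: `n ^ (p - 1) = p ^ r` forces `n = p ^ b` with `(p - 1) * b = r`. -/
theorem SU_pow_arith {p n r : ℕ} (hp : p.Prime) (h : n ^ (p - 1) = p ^ r) :
    ∃ b, r = (p - 1) * b ∧ n = p ^ b := by
  have hp1 : p - 1 ≠ 0 := Nat.sub_ne_zero_of_lt hp.one_lt
  have hdvd : n ∣ p ^ r := by
    rw [← h]; exact dvd_pow_self n hp1
  obtain ⟨b, -, rfl⟩ := (Nat.dvd_prime_pow hp).1 hdvd
  refine ⟨b, ?_, rfl⟩
  rw [← pow_mul] at h
  have := Nat.pow_right_injective hp.two_le h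
  rw [← this, mul_comm]

/-- For a free `ℤ`-module of finite rank with an endomorphism `f` killed by
`1 + X + ⋯ + X^(p-1)`: the rank is `(p - 1) * b` and `|det (f - 1)| = p ^ b`. -/
theorem SU_det_sub_one (p : ℕ) [hp : Fact p.Prime] {B : Type*} [AddCommGroup B]
    [Module.Free ℤ B] [Module.Finite ℤ B] (f : Module.End ℤ B)
    (hN : ∑ i ∈ Finset.range p, f ^ i = 0) :
    ∃ b, Module.finrank ℤ B = (p - 1) * b ∧ (LinearMap.det (f - 1)).natAbs = p ^ b := by
  obtain ⟨G, G', W, h1, h2⟩ := SU_poly_unit p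
  have hΦ : aeval f (∑ i ∈ Finset.range p, (X : ℤ[X]) ^ i) = 0 := by
    rw [map_sum]
    simpa using hN
  have e1 : (f - 1) ^ (p - 1) = (p : ℤ) • aeval f G := by
    have := congrArg (aeval f) h1
    rw [map_add, hΦ, add_zero, map_mul, map_pow, map_sub, aeval_X, map_one, aeval_C] at this
    rw [this, Algebra.algebraMap_eq_smul_one, smul_mul_assoc, one_mul]
  have e2 : aeval f G * aeval f G' = 1 := by
    have := congrArg (aeval f) h2
    rw [map_mul, map_add, map_mul, hΦ, mul_zero, add_zero, map_one] at this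
    exact this
  have d1 : LinearMap.det (f - 1) ^ (p - 1) =
      (p : ℤ) ^ Module.finrank ℤ B * LinearMap.det (aeval f G) := by
    rw [← map_pow, e1, LinearMap.det_smul]
  have d2 : LinearMap.det (aeval f G) * LinearMap.det (aeval f G') = 1 := by
    rw [← map_mul, e2, map_one]
  have d3 : (LinearMap.det (aeval f G)).natAbs = 1 :=
    Int.natAbs_of_isUnit (IsUnit.of_mul_eq_one _ d2)
  have d4 : (LinearMap.det (f - 1)).natAbs ^ (p - 1) = p ^ Module.finrank ℤ B := by
    have := congrArg Int.natAbs d1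
    rw [Int.natAbs_pow, Int.natAbs_mul, d3, mul_one, Int.natAbs_pow, Int.natAbs_natCast] at this
    exact this
  obtain ⟨b, hb1, hb2⟩ := SU_pow_arith hp.out d4
  exact ⟨b, hb1, hb2⟩

/-- index of the range of an injective endomorphism of a free `ℤ`-module of finite rank -/
theorem SU_card_quot_range {B : Type*} [AddCommGroup B]
    [Module.Free ℤ B] [Module.Finite ℤ B] (f : Module.End ℤ B) (hf : Function.Injective f) :
    Nat.card (B ⧸ LinearMap.range f) = (LinearMap.det f).natAbs := by
  let e : B ≃ₗ[ℤ] LinearMap.range f := LinearEquiv.ofInjective f hf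
  have := Submodule.natAbs_det_equiv (LinearMap.range f) e
  rw [← this]
  congr 2
  

end Det

section Rank

variable {M N : Type*} [AddCommGroup M] [AddCommGroup N]

/-- rank–nullity for `ℤ`-linear maps of finitely generated groups -/
theorem SU_finrank_range_add_ker [Module.Finite ℤ M] (f : M →ₗ[ℤ] N) :
    finrank ℤ (LinearMap.range f) + finrank ℤ (LinearMap.ker f) = finrank ℤ M := by
  rw [← (LinearMap.quotKerEquivRange f).finrank_eq]
  exact Submodule.finrank_quotient_add_finrank (LinearMap.ker f)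

/-- a finitely generated group killed by a nonzero integer has rank `0` -/
theorem SU_finrank_eq_zero_of_smul [Module.Finite ℤ M] (n : ℤ) (hn : n ≠ 0)
    (h : ∀ x : M, n • x = 0) : finrank ℤ M = 0 := by
  rw [Module.finrank_eq_zero_iff_isTorsion]
  intro x
  exact ⟨⟨n, mem_nonZeroDivisors_of_ne_zero hn⟩, h x⟩

/-- the quotient by the torsion has the same rank -/
theorem SU_finrank_quot_torsion [Module.Finite ℤ M] :
    finrank ℤ (M ⧸ Submodule.torsion ℤ M) = finrank ℤ M := by
  have h := Submodule.finrank_quotient_add_finrank (Submodule.torsion ℤ M)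
  have h0 : finrank ℤ (Submodule.torsion ℤ M) = 0 := by
    rw [Module.finrank_eq_zero_iff_isTorsion]
    exact Submodule.torsion_isTorsion
  omega

/-- commensurable submodules have the same rank -/
theorem SU_finrank_eq_of_smul_le [Module.Finite ℤ M] (X Y : Submodule ℤ M) (hXY : X ≤ Y)
    (n : ℤ) (hn : n ≠ 0) (h : ∀ y ∈ Y, n • y ∈ X) : finrank ℤ X = finrank ℤ Y := by
  apply le_antisymm (Submodule.finrank_mono hXY)
  let f : Y →ₗ[ℤ] X :=
    { toFun := fun y => ⟨n • (y : M), h y y.2⟩
      map_add' := fun a b => by ext; simp [smul_add]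
      map_smul' := fun c a => by ext; simp [smul_comm n c] }
  have h1 := SU_finrank_range_add_ker f
  have h2 : finrank ℤ (LinearMap.ker f) = 0 := by
    apply SU_finrank_eq_zero_of_smul n hn
    rintro ⟨y, hy⟩
    ext
    have := (LinearMap.mem_ker).1 hy
    have := congrArg (fun z : X => (z : M)) this
    simpa [f] using this
  have h3 : finrank ℤ (LinearMap.range f) ≤ finrank ℤ X := Submodule.finrank_le _
  omega

end Rank

section Free

variable {A : Type*} [AddCommGroup A] [Module.Free ℤ A] [Module.Finite ℤ A]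

omit [Module.Finite ℤ A] in
theorem SU_nsmul_eq_zero {n : ℕ} (hn : n ≠ 0) {x : A} (h : n • x = 0) : x = 0 := by
  rw [← natCast_zsmul] at h
  exact (smul_eq_zero.1 h).resolve_left (by exact_mod_cast hn)

/-- index of the range of an injective additive endomorphism -/
theorem SU_index_range (f : A →+ A) (hf : Function.Injective f) :
    f.range.index = (LinearMap.det f.toIntLinearMap).natAbs := by
  rw [← SU_card_quot_range f.toIntLinearMap hf, AddSubgroup.index_eq_card]
  rfl

/-- trivial action on a free group of finite rank: Herbrand quotient `p ^ rank` -/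
theorem SU_hq_one_free (p : ℕ) [hp : Fact p.Prime] :
    IsHQ (1 : AddMonoid.End A) p ((p : ℚ) ^ finrank ℤ A) := by
  have hp0 : (p : ℤ) ≠ 0 := by exact_mod_cast hp.out.ne_zero
  have hinj : Function.Injective (nrm (1 : AddMonoid.End A) p) := by
    rw [injective_iff_map_eq_zero]
    intro x hx
    rw [nrm_one_apply] at hx
    exact SU_nsmul_eq_zero hp.out.ne_zero hx
  have hlin : (nrm (1 : AddMonoid.End A) p).toIntLinearMap = (p : ℤ) • (1 : Module.End ℤ A) := by
    ext x
    simp [nrm_one_apply]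
  have e0 : h0 (1 : AddMonoid.End A) p = p ^ finrank ℤ A := by
    rw [h0_one, SU_index_range _ hinj, hlin, LinearMap.det_smul, map_one, mul_one,
      Int.natAbs_pow, Int.natAbs_natCast]
  have e1 : h1 (1 : AddMonoid.End A) p = 1 := by
    rw [h1_one, (AddMonoidHom.ker_eq_bot_iff _).2 hinj]
    simp
  have := hq_of_eq e0 e1 (pow_ne_zero _ hp.out.ne_zero) one_ne_zero
  simpa using this

/-- a free group of finite rank with `Nm = 0`: rank `(p - 1) * b`, Herbrand quotient `p ^ (-b)` -/
theorem SU_hq_nrm_free (p : ℕ) [hp : Fact p.Prime] (s : AddMonoid.End A)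
    (hN : ∀ x, nrm s p x = 0) :
    ∃ b, finrank ℤ A = (p - 1) * b ∧ IsHQ s p (((p : ℚ) ^ b)⁻¹) := by
  have hinj : Function.Injective (del s) := by
    rw [injective_iff_map_eq_zero]
    intro x hx
    have hsx : s x = x := by
      rw [del_apply] at hx
      exact sub_eq_zero.1 hx
    have hit : ∀ i : ℕ, (s^[i]) x = x := fun i => Function.iterate_fixed hsx i
    have := hN x
    rw [nrm_apply] at this
    simp only [hit, Finset.sum_const, Finset.card_range] at this
    exact SU_nsmul_eq_zero hp.out.ne_zero this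
  have hNlin : ∑ i ∈ Finset.range p, (s : A →+ A).toIntLinearMap ^ i = 0 := by
    ext x
    have := hN x
    rw [nrm_apply] at this
    rw [LinearMap.zero_apply, ← this, LinearMap.sum_apply]
    refine Finset.sum_congr rfl fun i _ => ?_
    rw [Module.End.pow_apply]
    rfl
  obtain ⟨b, hb1, hb2⟩ := SU_det_sub_one p (s : A →+ A).toIntLinearMap hNlin
  refine ⟨b, hb1, ?_⟩
  have hlin : (del s).toIntLinearMap = (s : A →+ A).toIntLinearMap - 1 := by
    ext x
    rfl
  have e0 : h0 s p = 1 := by
    rw [h0_def, (AddMonoidHom.ker_eq_bot_iff _).2 hinj]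
    simp
  have hker : (nrm s p).ker = ⊤ := by
    ext x
    simp [AddMonoidHom.mem_ker, hN x]
  have e1 : h1 s p = p ^ b := by
    rw [h1_def, hker, AddSubgroup.relIndex_top_right, SU_index_range _ hinj, hlin, hb2]
  have := hq_of_eq e0 e1 one_ne_zero (pow_ne_zero _ hp.out.ne_zero)
  simpa using this

end Free

section Torsion

variable {M : Type*} [AddCommGroup M]

/-- `s` preserves the torsion submodule. -/
theorem SU_torsion_stable (s : AddMonoid.End M) (x : M) (hx : x ∈ Submodule.torsion ℤ M) :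
    s x ∈ Submodule.torsion ℤ M := by
  rw [Submodule.mem_torsion_iff] at hx ⊢
  obtain ⟨a, ha⟩ := hx
  refine ⟨a, ?_⟩
  have : (a : ℤ) • s x = s ((a : ℤ) • x) := (map_zsmul s (a : ℤ) x).symm
  rw [Submonoid.smul_def, this, ← Submonoid.smul_def, ha, map_zero]

/-- the endomorphism induced on the quotient by the torsion -/
noncomputable def SU_quoTors (s : AddMonoid.End M) : AddMonoid.End (M ⧸ Submodule.torsion ℤ M) :=
  ((Submodule.torsion ℤ M).mapQ (Submodule.torsion ℤ M) (s : M →+ M).toIntLinearMap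
    (fun x hx => SU_torsion_stable s x hx)).toAddMonoidHom

/-- the endomorphism induced on the torsion -/
noncomputable def SU_resTors (s : AddMonoid.End M) : AddMonoid.End (Submodule.torsion ℤ M) :=
  (((s : M →+ M).toIntLinearMap).restrict
    (p := Submodule.torsion ℤ M) (q := Submodule.torsion ℤ M)
    (fun x hx => SU_torsion_stable s x hx)).toAddMonoidHom

theorem SU_quoTors_mk (s : AddMonoid.End M) (x : M) :
    SU_quoTors s ((Submodule.torsion ℤ M).mkQ x) = (Submodule.torsion ℤ M).mkQ (s x) := rfl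

theorem SU_resTors_coe (s : AddMonoid.End M) (x : Submodule.torsion ℤ M) :
    ((SU_resTors s x : Submodule.torsion ℤ M) : M) = s (x : M) := rfl

theorem SU_quoTors_one : SU_quoTors (1 : AddMonoid.End M) = 1 := by
  ext x
  obtain ⟨y, rfl⟩ := (Submodule.torsion ℤ M).mkQ_surjective x
  rfl

theorem SU_hq_tors_iff [Module.Finite ℤ M] (p : ℕ) (s : AddMonoid.End M)
    (hs : ∀ x, (s^[p]) x = x) (q : ℚ) : IsHQ s p q ↔ IsHQ (SU_quoTors s) p q := by
  let T := Submodule.torsion ℤ M
  let φ : T →+ M := T.subtype.toAddMonoidHom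
  let ψ : M →+ M ⧸ T := T.mkQ.toAddMonoidHom
  have hφ : Function.Injective φ := T.injective_subtype
  have hψ : Function.Surjective ψ := T.mkQ_surjective
  have hex : φ.range = ψ.ker := by
    ext x
    rw [AddMonoidHom.mem_range, AddMonoidHom.mem_ker]
    constructor
    · rintro ⟨y, rfl⟩
      exact (Submodule.Quotient.mk_eq_zero T).2 y.2
    · intro hx
      exact ⟨⟨x, (Submodule.Quotient.mk_eq_zero T).1 hx⟩, rfl⟩
  have hA : ∀ a, φ (SU_resTors s a) = s (φ a) := fun a => rfl
  have hC : ∀ b, ψ (s b) = SU_quoTors s (ψ b) := fun b => rfl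
  have hfin : Finite T := Module.finite_of_fg_torsion T Submodule.torsion_isTorsion
  have hsT : ∀ x : T, ((SU_resTors s)^[p]) x = x := by
    intro x
    apply hφ
    rw [iterate_semiconj φ (SU_resTors s) s hA p x, hs]
  have hT : IsHQ (SU_resTors s) p 1 := hq_of_finite hsT
  constructor
  · intro h
    have := hq_right hφ hψ hex hs hA hC hT h
    simpa using this
  · intro h
    have := hq_mid hφ hψ hex hs hA hC hT h
    simpa using this

/-- trivial action on a finitely generated group: Herbrand quotient `p ^ rank` -/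
theorem SU_hq_one [Module.Finite ℤ M] (p : ℕ) [hp : Fact p.Prime] :
    IsHQ (1 : AddMonoid.End M) p ((p : ℚ) ^ finrank ℤ M) := by
  rw [SU_hq_tors_iff p 1 (fun x => by simp), SU_quoTors_one, ← SU_finrank_quot_torsion (M := M)]
  exact SU_hq_one_free p

/-- a finitely generated group with `Nm = 0` -/
theorem SU_hq_nrm [Module.Finite ℤ M] (p : ℕ) [hp : Fact p.Prime] (s : AddMonoid.End M)
    (hs : ∀ x, (s^[p]) x = x) (hN : ∀ x, nrm s p x = 0) :
    ∃ b, finrank ℤ M = (p - 1) * b ∧ IsHQ s p (((p : ℚ) ^ b)⁻¹) := by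
  have hN' : ∀ x, nrm (SU_quoTors s) p x = 0 := by
    intro x
    obtain ⟨y, rfl⟩ := (Submodule.torsion ℤ M).mkQ_surjective x
    have := map_nrm (Submodule.torsion ℤ M).mkQ.toAddMonoidHom s (SU_quoTors s)
      (fun a => rfl) p y
    rw [hN y, map_zero] at this
    exact this.symm
  obtain ⟨b, hb1, hb2⟩ := SU_hq_nrm_free p (SU_quoTors s) hN'
  refine ⟨b, ?_, (SU_hq_tors_iff p s hs _).2 hb2⟩
  rw [← hb1, SU_finrank_quot_torsion]

end Torsion

section Main

variable {M : Type*} [AddCommGroup M]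

/-- restriction of an endomorphism to a stable submodule -/
noncomputable def SU_res (s : AddMonoid.End M) (H : Submodule ℤ M) (hH : ∀ x ∈ H, s x ∈ H) :
    AddMonoid.End H :=
  (((s : M →+ M).toIntLinearMap).restrict (p := H) (q := H) hH).toAddMonoidHom

theorem SU_res_coe (s : AddMonoid.End M) (H : Submodule ℤ M) (hH : ∀ x ∈ H, s x ∈ H) (x : H) :
    ((SU_res s H hH x : H) : M) = s (x : M) := rfl

theorem SU_res_iterate (s : AddMonoid.End M) (H : Submodule ℤ M) (hH : ∀ x ∈ H, s x ∈ H)
    (p : ℕ) (hs : ∀ x, (s^[p]) x = x) (x : H) : ((SU_res s H hH)^[p]) x = x := by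
  apply H.injective_subtype
  have := iterate_semiconj H.subtype.toAddMonoidHom (SU_res s H hH) s (fun a => rfl) p x
  exact this.trans (hs _)

/-- a submodule containing `n M` has finite index -/
theorem SU_index_ne_zero [Module.Finite ℤ M] (H : Submodule ℤ M) (n : ℤ) (hn : n ≠ 0)
    (h : ∀ x : M, n • x ∈ H) : H.toAddSubgroup.index ≠ 0 := by
  have htors : Module.IsTorsion ℤ (M ⧸ H) := by
    intro x
    obtain ⟨y, rfl⟩ := H.mkQ_surjective x
    refine ⟨⟨n, mem_nonZeroDivisors_of_ne_zero hn⟩, ?_⟩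
    show n • H.mkQ y = 0
    rw [← map_smul]
    exact (Submodule.Quotient.mk_eq_zero H).2 (h y)
  have hfin : Finite (M ⧸ H) := Module.finite_of_fg_torsion _ htors
  have hfin' : Finite (M ⧸ H.toAddSubgroup) := hfin
  exact AddSubgroup.index_ne_zero_of_finite

theorem SU_nrm_comm (s : AddMonoid.End M) (p : ℕ) (x : M) :
    nrm s p (s x) = s (nrm s p x) :=
  (map_nrm (s : M →+ M) s s (fun _ => rfl) p x).symm

theorem SU_del_comm (s : AddMonoid.End M) (x : M) :
    del s (s x) = s (del s x) :=
  (map_del (s : M →+ M) s s (fun _ => rfl) x).symm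

/-- `p • y ∈ (s - 1) M` if `Nm y = 0`. -/
theorem SU_smul_mem_range_del (s : AddMonoid.End M) (p : ℕ) (y : M) (hy : nrm s p y = 0) :
    ∃ z, del s z = (p : ℤ) • y := by
  have key : ∀ i : ℕ, ∃ z, del s z = (s^[i]) y - y := by
    intro i
    induction i with
    | zero => exact ⟨0, by simp⟩
    | succ k ih =>
      obtain ⟨z, hz⟩ := ih
      refine ⟨s z + y, ?_⟩
      rw [map_add, SU_del_comm, hz, del_apply, map_sub, Function.iterate_succ_apply']
      abel
  choose z hz using key
  refine ⟨-∑ i ∈ Finset.range p, z i, ?_⟩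
  rw [map_neg, map_sum]
  simp only [hz, Finset.sum_sub_distrib, Finset.sum_const, Finset.card_range]
  rw [← nrm_apply, hy, zero_sub, neg_neg, natCast_zsmul]

/-- **Abstract rank formula for Herbrand quotients.**  Let `M` be a finitely generated abelian
group with an automorphism `s` such that `s ^ p = 1`, `p` prime.  Put
`a = rank ker (s - 1)`.  Then `rank M = a + (p - 1) * b` for some `b`, and the Herbrand quotient
of `M` is `p ^ a / p ^ b`. -/
theorem SU_rank_formula [Module.Finite ℤ M] (p : ℕ) [hp : Fact p.Prime] (s : AddMonoid.End M)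
    (hs : ∀ x, (s^[p]) x = x) :
    ∃ b, finrank ℤ M = finrank ℤ (LinearMap.ker (del s).toIntLinearMap) + (p - 1) * b ∧
      IsHQ s p ((p : ℚ) ^ finrank ℤ (LinearMap.ker (del s).toIntLinearMap) / (p : ℚ) ^ b) := by
  have hp0 : (p : ℤ) ≠ 0 := by exact_mod_cast hp.out.ne_zero
  set A : Submodule ℤ M := LinearMap.ker (del s).toIntLinearMap with hAdef
  set D : Submodule ℤ M := LinearMap.range (del s).toIntLinearMap with hDdef
  set B : Submodule ℤ M := LinearMap.ker (nrm s p).toIntLinearMap with hBdef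
  have hDB : D ≤ B := by
    rintro _ ⟨x, rfl⟩
    exact nrm_comp_del s p hs x
  have hpB : ∀ y ∈ B, (p : ℤ) • y ∈ D := by
    intro y hy
    obtain ⟨z, hz⟩ := SU_smul_mem_range_del s p y hy
    exact ⟨z, hz⟩
  have hDst : ∀ x ∈ D, s x ∈ D := by
    rintro _ ⟨x, rfl⟩
    exact ⟨s x, SU_del_comm s x⟩
  have hBst : ∀ x ∈ B, s x ∈ B := by
    intro x hx
    show nrm s p (s x) = 0
    rw [SU_nrm_comm]
    have : nrm s p x = 0 := hx
    rw [this, map_zero]
  -- Herbrand quotient of `B`
  have hNB : ∀ x : B, nrm (SU_res s B hBst) p x = 0 := by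
    intro x
    apply B.injective_subtype
    have := map_nrm B.subtype.toAddMonoidHom (SU_res s B hBst) s (fun _ => rfl) p x
    rw [map_zero]
    exact this.trans x.2
  obtain ⟨b, hb1, hb2⟩ := SU_hq_nrm p (SU_res s B hBst) (SU_res_iterate s B hBst p hs) hNB
  -- Herbrand quotient of `D`
  have hD : IsHQ (SU_res s D hDst) p (((p : ℚ) ^ b)⁻¹) := by
    let φ : D →+ B := (Submodule.inclusion hDB).toAddMonoidHom
    have hφ : Function.Injective φ := Submodule.inclusion_injective hDB
    have hidx : φ.range.index ≠ 0 := by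
      have := SU_index_ne_zero (LinearMap.range (Submodule.inclusion hDB)) (p : ℤ) hp0 (by
        intro y
        obtain ⟨z, hz⟩ := hpB y y.2
        exact ⟨⟨_, z, rfl⟩, Subtype.ext hz⟩)
      exact this
    exact (hq_iff_of_finiteIndex (φ := φ) hφ hidx (SU_res_iterate s B hBst p hs)
      (fun _ => rfl)).2 hb2
  -- Herbrand quotient of `A`
  have hA : IsHQ (1 : AddMonoid.End A) p ((p : ℚ) ^ finrank ℤ A) := SU_hq_one p
  -- glue
  let φ : A →+ M := A.subtype.toAddMonoidHom
  let ψ : M →+ D := ((del s).toIntLinearMap.rangeRestrict).toAddMonoidHom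
  have hφ : Function.Injective φ := A.injective_subtype
  have hψ : Function.Surjective ψ := LinearMap.surjective_rangeRestrict _
  have hex : φ.range = ψ.ker := by
    ext x
    rw [AddMonoidHom.mem_range, AddMonoidHom.mem_ker]
    constructor
    · rintro ⟨y, rfl⟩
      exact Subtype.ext y.2
    · intro hx
      exact ⟨⟨x, congrArg Subtype.val hx⟩, rfl⟩
  have hAeq : ∀ a, φ ((1 : AddMonoid.End A) a) = s (φ a) := by
    intro a
    have : del s (a : M) = 0 := a.2
    rw [del_apply, sub_eq_zero] at this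
    exact this.symm
  have hCeq : ∀ x, ψ (s x) = SU_res s D hDst (ψ x) := by
    intro x
    exact Subtype.ext (SU_del_comm s x)
  have hM := hq_mid hφ hψ hex hs hAeq hCeq hA hD
  refine ⟨b, ?_, ?_⟩
  · have h1 := SU_finrank_range_add_ker (del s).toIntLinearMap
    have h2 : finrank ℤ D = finrank ℤ B :=
      SU_finrank_eq_of_smul_le D B hDB (p : ℤ) hp0 hpB
    rw [← hb1, ← h2, ← h1, add_comm]
  · rw [div_eq_mul_inv]
    exact hM

end Main

end Fermat.Agent.PT.Units
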