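import Mathlib
import Fermat.Agent.PT.Units.RankFormula

/-!
# W3-PT, leaf group PT-UNITS, module U1: Dirichlet's `S`-unit theorem

For a number field `K` and a finite set `S` of finite places (`HeightOneSpectrum (𝓞 K)`), the
group `S.unit K` of `S`-units (Mathlib's `Set.unit`) is finitely generated of rank
`Units.rank K + #S`:

* `SU_sunit_finite : Module.Finite ℤ (Additive (S.unit K))`
* `SU_sunit_finrank : finrank ℤ (Additive (S.unit K)) = Units.rank K + Nat.card S`

Tools: the valuation vector `SU_valHom K S : Additive (S.unit K) →+ (S → ℤ)`, whose kernel is the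
image of the units (`SU_unitHom`, `SU_unitHom_range`) and whose image contains `h • ℤ^S`, `h` the
class number (`SU_smul_mem_range`).
-/

set_option autoImplicit false

namespace Fermat.Agent.PT.Units

open IsDedekindDomain NumberField Module

section Gen

variable {R : Type*} [CommRing R] [IsDedekindDomain R]

/-- valuation at `v` of a generator of `v ^ h`. -/
theorem SU_intValuation_self (v : HeightOneSpectrum R) (h : ℕ) (a : R)
    (ha : Ideal.span {a} = v.asIdeal ^ h) :
    v.intValuation a = WithZero.exp (-(h : ℤ)) := by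
  apply le_antisymm
  · rw [HeightOneSpectrum.intValuation_le_pow_iff_dvd, ha]
  · rw [HeightOneSpectrum.exp_le_intValuation_iff_emultiplicity_le, ha,
      emultiplicity_pow_self_of_prime v.prime]

/-- valuation at `w ≠ v` of a generator of `v ^ h`. -/
theorem SU_intValuation_other (v w : HeightOneSpectrum R) (hwv : w ≠ v) (h : ℕ) (a : R)
    (ha : Ideal.span {a} = v.asIdeal ^ h) :
    w.intValuation a = 1 := by
  apply le_antisymm (w.intValuation_le_one a)
  by_contra hlt
  rw [not_le, HeightOneSpectrum.intValuation_lt_one_iff_dvd, ha] at hlt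
  have h1 : w.asIdeal ∣ v.asIdeal := w.prime.dvd_of_dvd_pow hlt
  have h2 : v.asIdeal ≤ w.asIdeal := Ideal.le_of_dvd h1
  have h3 : v.asIdeal = w.asIdeal :=
    (v.isMaximal.eq_of_le w.isPrime.ne_top h2)
  exact hwv (HeightOneSpectrum.ext h3.symm)

end Gen

section NF

variable (K : Type*) [Field K] [NumberField K]

/-- some power of every prime is principal, with a uniform exponent -/
theorem SU_exists_pow_principal (v : HeightOneSpectrum (𝓞 K)) :
    ∃ a : 𝓞 K, a ≠ 0 ∧ Ideal.span {a} = v.asIdeal ^ (Fintype.card (ClassGroup (𝓞 K))) := by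
  classical
  set h := Fintype.card (ClassGroup (𝓞 K)) with hh
  have hv0 : v.asIdeal ≠ ⊥ := v.ne_bot
  have hmem : v.asIdeal ∈ nonZeroDivisors (Ideal (𝓞 K)) :=
    mem_nonZeroDivisors_of_ne_zero hv0
  have hpow : v.asIdeal ^ h ∈ nonZeroDivisors (Ideal (𝓞 K)) :=
    mem_nonZeroDivisors_of_ne_zero (pow_ne_zero h hv0)
  have h1 : ClassGroup.mk0 ⟨v.asIdeal ^ h, hpow⟩ = 1 := by
    have : (⟨v.asIdeal ^ h, hpow⟩ : nonZeroDivisors (Ideal (𝓞 K))) = ⟨v.asIdeal, hmem⟩ ^ h := by
      ext; rfl
    rw [this, map_pow, hh]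
    exact pow_card_eq_one
  rw [ClassGroup.mk0_eq_one_iff] at h1
  obtain ⟨a, ha⟩ := h1
  refine ⟨a, ?_, ?_⟩
  · rintro rfl
    have : v.asIdeal ^ h = ⊥ := by
      rw [ha]; simp
    exact pow_ne_zero h hv0 this
  · rw [ha]

end NF

section SUnit

variable (K : Type*) [Field K] [NumberField K]

/-- the additive valuation (Mathlib's sign: `exp (ord)` is the multiplicative valuation) -/
noncomputable def SU_ord (v : HeightOneSpectrum (𝓞 K)) : Additive Kˣ →+ ℤ where
  toFun x := Multiplicative.toAdd (v.valuationOfNeZero (Additive.toMul x))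
  map_zero' := by simp
  map_add' x y := by simp

theorem SU_ord_apply (v : HeightOneSpectrum (𝓞 K)) (x : Kˣ) :
    SU_ord K v (Additive.ofMul x) = Multiplicative.toAdd (v.valuationOfNeZero x) := rfl

theorem SU_exp_ord (v : HeightOneSpectrum (𝓞 K)) (x : Kˣ) :
    WithZero.exp (SU_ord K v (Additive.ofMul x)) = v.valuation K (x : K) := by
  rw [← HeightOneSpectrum.valuationOfNeZero_eq]
  rfl

theorem SU_ord_eq_zero_iff (v : HeightOneSpectrum (𝓞 K)) (x : Kˣ) :
    SU_ord K v (Additive.ofMul x) = 0 ↔ v.valuation K (x : K) = 1 := by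
  rw [← SU_exp_ord, ← WithZero.exp_zero, WithZero.exp_inj]

variable (S : Set (HeightOneSpectrum (𝓞 K)))

/-- the valuation vector of an `S`-unit -/
noncomputable def SU_valHom : Additive (S.unit K) →+ (S → ℤ) :=
  AddMonoidHom.pi fun v => (SU_ord K v.1).comp (MonoidHom.toAdditive (S.unit K).subtype)

theorem SU_valHom_apply (x : S.unit K) (v : S) :
    SU_valHom K S (Additive.ofMul x) v = SU_ord K v.1 (Additive.ofMul (x : Kˣ)) := rfl

/-- units are `S`-units -/
noncomputable def SU_unitHom : Additive (𝓞 K)ˣ →+ Additive (S.unit K) :=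
  MonoidHom.toAdditive
    { toFun := fun u => ⟨Units.map (algebraMap (𝓞 K) K : 𝓞 K →* K) u, fun v _ => by
        have := HeightOneSpectrum.valuation_of_unit_eq (K := K) v u
        rw [← WithZero.coe_inj, HeightOneSpectrum.valuationOfNeZero_eq] at this
        exact this⟩
      map_one' := by ext; simp
      map_mul' := fun a b => by ext; simp }

theorem SU_unitHom_coe (u : (𝓞 K)ˣ) :
    ((((SU_unitHom K S (Additive.ofMul u)).toMul : S.unit K) : Kˣ) : K) = algebraMap (𝓞 K) K u :=
  rfl

theorem SU_unitHom_injective : Function.Injective (SU_unitHom K S) := by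
  intro a b hab
  have h1 := congrArg (fun z : Additive (S.unit K) => (((z.toMul : S.unit K) : Kˣ) : K)) hab
  have h2 : ((Additive.toMul a : (𝓞 K)ˣ) : 𝓞 K) = ((Additive.toMul b : (𝓞 K)ˣ) : 𝓞 K) :=
    FaithfulSMul.algebraMap_injective (𝓞 K) K h1
  exact Additive.toMul.injective (Units.ext h2)

theorem SU_valHom_unitHom (u : Additive (𝓞 K)ˣ) : SU_valHom K S (SU_unitHom K S u) = 0 := by
  funext v
  have := HeightOneSpectrum.valuation_of_unit_eq (K := K) v.1 (Additive.toMul u)
  exact congrArg Multiplicative.toAdd this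

theorem SU_unitHom_range : (SU_unitHom K S).range = (SU_valHom K S).ker := by
  ext x
  rw [AddMonoidHom.mem_range, AddMonoidHom.mem_ker]
  constructor
  · rintro ⟨u, rfl⟩
    exact SU_valHom_unitHom K S u
  · intro hx
    set y : S.unit K := Additive.toMul x with hy
    have hall : ∀ v : HeightOneSpectrum (𝓞 K), v.valuation K ((y : Kˣ) : K) = 1 := by
      intro v
      by_cases hv : v ∈ S
      · have := congrFun hx ⟨v, hv⟩
        exact (SU_ord_eq_zero_iff K v (y : Kˣ)).1 this
      · exact y.2 v hv
    have hall' : ∀ v : HeightOneSpectrum (𝓞 K), v.valuation K (((y : Kˣ)⁻¹ : Kˣ) : K) = 1 := by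
      intro v
      rw [Units.val_inv_eq_inv_val, map_inv₀, hall v, inv_one]
    obtain ⟨a, ha⟩ := HeightOneSpectrum.mem_integers_of_valuation_le_one K ((y : Kˣ) : K)
      (fun v => (hall v).le)
    obtain ⟨b, hb⟩ := HeightOneSpectrum.mem_integers_of_valuation_le_one K (((y : Kˣ)⁻¹ : Kˣ) : K)
      (fun v => (hall' v).le)
    have hab : a * b = 1 := by
      apply FaithfulSMul.algebraMap_injective (𝓞 K) K
      rw [map_mul, ha, hb, map_one, Units.mul_inv]
    have hba : b * a = 1 := by rw [mul_comm, hab]
    refine ⟨Additive.ofMul ⟨a, b, hab, hba⟩, ?_⟩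
    apply Additive.toMul.injective
    apply Subtype.ext
    apply Units.ext
    exact ha

/-- the class number as an integer -/
noncomputable def SU_h : ℤ := (Fintype.card (ClassGroup (𝓞 K)) : ℤ)

theorem SU_h_ne_zero : SU_h K ≠ 0 := by
  unfold SU_h
  exact_mod_cast Fintype.card_ne_zero

/-- for `v ∈ S` there is an `S`-unit with valuation vector `- h • e_v` -/
theorem SU_exists_sunit (v : S) :
    ∃ x : S.unit K, SU_valHom K S (Additive.ofMul x) v = - SU_h K ∧
      ∀ w : S, w ≠ v → SU_valHom K S (Additive.ofMul x) w = 0 := by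
  classical
  obtain ⟨a, ha0, ha⟩ := SU_exists_pow_principal K v.1
  have hval : ∀ w : HeightOneSpectrum (𝓞 K), w.valuation K (algebraMap (𝓞 K) K a) =
      if w = v.1 then WithZero.exp (- SU_h K) else 1 := by
    intro w
    rw [HeightOneSpectrum.valuation_of_algebraMap]
    split_ifs with hw
    · subst hw
      exact SU_intValuation_self _ _ a ha
    · exact SU_intValuation_other v.1 w hw _ a ha
  have ha0' : algebraMap (𝓞 K) K a ≠ 0 := by
    rwa [ne_eq, FaithfulSMul.algebraMap_eq_zero_iff]
  refine ⟨⟨Units.mk0 _ ha0', fun w hw => ?_⟩, ?_, fun w hwv => ?_⟩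
  · rw [Units.val_mk0, hval w, if_neg]
    rintro rfl
    exact hw v.2
  · show SU_ord K v.1 (Additive.ofMul (Units.mk0 _ ha0')) = _
    have h1 := SU_exp_ord K v.1 (Units.mk0 _ ha0')
    rw [Units.val_mk0, hval v.1, if_pos rfl] at h1
    exact WithZero.exp_injective h1
  · show SU_ord K w.1 (Additive.ofMul (Units.mk0 _ ha0')) = _
    have h1 := SU_exp_ord K w.1 (Units.mk0 _ ha0')
    rw [Units.val_mk0, hval w.1, if_neg (fun h => hwv (Subtype.ext h)), ← WithZero.exp_zero] at h1
    exact WithZero.exp_injective h1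

/-- the image of the valuation map contains `h • ℤ^S` -/
theorem SU_smul_mem_range [Finite S] (y : S → ℤ) :
    SU_h K • y ∈ (SU_valHom K S).range := by
  classical
  have : Fintype S := Fintype.ofFinite S
  choose x hx1 hx2 using SU_exists_sunit K S
  refine ⟨∑ v : S, (- y v) • Additive.ofMul (x v), ?_⟩
  rw [map_sum]
  funext w
  rw [Finset.sum_apply, Pi.smul_apply]
  have : ∀ v : S, (SU_valHom K S ((- y v) • Additive.ofMul (x v))) w =
      if v = w then SU_h K * y w else 0 := by
    intro v
    rw [map_zsmul, Pi.smul_apply]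
    split_ifs with h
    · subst h
      rw [hx1, smul_eq_mul]; ring
    · rw [hx2 v w (fun h' => h h'.symm), smul_zero]
  simp only [this]
  rw [Finset.sum_ite_eq' Finset.univ w]
  simp

/-- **Dirichlet's `S`-unit theorem**, finite generation. -/
theorem SU_sunit_finite [Finite S] : Module.Finite ℤ (Additive (S.unit K)) := by
  have : Fintype S := Fintype.ofFinite S
  have hN : IsNoetherian ℤ (Additive (S.unit K)) :=
    isNoetherian_of_range_eq_ker (SU_unitHom K S).toIntLinearMap (SU_valHom K S).toIntLinearMap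
      (by
        ext x
        have := SetLike.ext_iff.1 (SU_unitHom_range K S) x
        exact this)
  infer_instance

/-- **Dirichlet's `S`-unit theorem**, the rank. -/
theorem SU_sunit_finrank [Finite S] :
    finrank ℤ (Additive (S.unit K)) = Units.rank K + Nat.card S := by
  have : Fintype S := Fintype.ofFinite S
  have := SU_sunit_finite K S
  have h1 := SU_finrank_range_add_ker (SU_valHom K S).toIntLinearMap
  have h2 : finrank ℤ (LinearMap.range (SU_valHom K S).toIntLinearMap) = Nat.card S := by
    rw [SU_finrank_eq_of_smul_le _ ⊤ le_top (SU_h K) (SU_h_ne_zero K)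
      (fun y _ => SU_smul_mem_range K S y), finrank_top, Module.finrank_pi,
      Nat.card_eq_fintype_card]
  have h3 : finrank ℤ (LinearMap.ker (SU_valHom K S).toIntLinearMap) = Units.rank K := by
    rw [← Units.finrank_eq]
    have hker : LinearMap.ker (SU_valHom K S).toIntLinearMap =
        LinearMap.range (SU_unitHom K S).toIntLinearMap := by
      ext x
      exact (SetLike.ext_iff.1 (SU_unitHom_range K S) x).symm
    rw [hker]
    exact (LinearEquiv.ofInjective (SU_unitHom K S).toIntLinearMap
      (SU_unitHom_injective K S)).finrank_eq.symm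
  omega

end SUnit

end Fermat.Agent.PT.Units
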