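import Mathlib
import Fermat.Agent.PT.Units.SUnit

/-!
# W3-PT, leaf group PT-UNITS, module U4: Kummer count and large sets of primes

* `SU_index_smul`: `[M : pM] = p ^ rank * #M[p]` for a finitely generated abelian group.
* `SU_index_sunit_pow`: if `K` contains a primitive `p`-th root of unity, then
  `[E_S : E_S ^ p] = p ^ (rank 𝓞ˣ + #S + 1)` for the `S`-units `E_S` (`S` a finite set of finite
  primes; the infinite places are counted by `Units.rank K + 1`).
* `SU_IsLarge K S`: the `S`-class group is trivial (valuation form); `SU_exists_large`: every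
  finite set of primes is contained in a finite large set; `SU_IsLarge.exists_ord_eq`: for large
  `S` every finitely supported valuation vector outside `S` comes from an element of `Kˣ`
  (so `I_K = Kˣ · I_{K,S}` for the idèles).
-/

set_option autoImplicit false
set_option linter.unusedSectionVars false

namespace Fermat.Agent.PT.Units

open IsDedekindDomain NumberField Module Fermat.Agent.S14.HQ

section ModP

variable {M : Type*} [AddCommGroup M]

/-- For a finitely generated abelian group: `[M : pM] = p ^ rank * #M[p]`. -/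
theorem SU_index_smul [Module.Finite ℤ M] (p : ℕ) [hp : Fact p.Prime] :
    (nrm (1 : AddMonoid.End M) p).range.index ≠ 0 ∧
    (nrm (1 : AddMonoid.End M) p).range.index =
      p ^ finrank ℤ M * Nat.card (nrm (1 : AddMonoid.End M) p).ker := by
  have h := SU_hq_one (M := M) p
  have e := h.h0_eq
  rw [h0_one, h1_one] at e
  refine ⟨by rw [← h0_one]; exact h.h0_ne_zero, ?_⟩
  exact_mod_cast e

end ModP

section Kummer

variable (K : Type*) [Field K] [NumberField K] (S : Set (HeightOneSpectrum (𝓞 K)))

/-- the `p`-th power endomorphism of the `S`-units (additively: multiplication by `p`) -/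
theorem SU_nrm_one_eq (p : ℕ) (x : Additive (S.unit K)) :
    nrm (1 : AddMonoid.End (Additive (S.unit K))) p x = Additive.ofMul (x.toMul ^ p) := by
  rw [nrm_one_apply]
  rfl

/-- roots of unity are `S`-units -/
theorem SU_rootsOfUnity_mem (p : ℕ) (hp : p ≠ 0) (y : Kˣ) (hy : y ^ p = 1) : y ∈ S.unit K := by
  intro v _
  have h1 : (v.valuation K (y : K)) ^ p = 1 := by
    rw [← map_pow, ← Units.val_pow_eq_pow_val, hy, Units.val_one, map_one]
  rcases eq_or_ne (v.valuation K (y : K)) 0 with h0 | h0
  · rw [h0, zero_pow hp] at h1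
    exact absurd h1 zero_ne_one
  · obtain ⟨m, hm⟩ := WithZero.ne_zero_iff_exists.1 h0
    rw [← hm] at h1 ⊢
    have h3 : m ^ p = 1 := by exact_mod_cast h1
    have h4 : p • Multiplicative.toAdd m = 0 := congrArg Multiplicative.toAdd h3
    have h5 : Multiplicative.toAdd m = 0 := by
      rcases smul_eq_zero.1 h4 with h | h
      · exact absurd h hp
      · exact h
    have : m = 1 := Multiplicative.toAdd.injective h5
    rw [this]; rfl

/-- If `K` contains a primitive `p`-th root of unity, the `S`-units have exactly `p` elements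
of order dividing `p`. -/
theorem SU_card_torsion (p : ℕ) [hp : Fact p.Prime] (ζ : K) (hζ : IsPrimitiveRoot ζ p) :
    Nat.card (nrm (1 : AddMonoid.End (Additive (S.unit K))) p).ker = p := by
  have hp0 : NeZero p := ⟨hp.out.ne_zero⟩
  have hc : Nat.card (rootsOfUnity p K) = p := hζ.card_rootsOfUnity
  have hto : ∀ x : (nrm (1 : AddMonoid.End (Additive (S.unit K))) p).ker,
      ((x.1.toMul : S.unit K) : Kˣ) ∈ rootsOfUnity p K := by
    intro x
    rw [mem_rootsOfUnity]
    have := x.2
    rw [AddMonoidHom.mem_ker, SU_nrm_one_eq] at this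
    exact congrArg (fun z : Additive (S.unit K) => ((z.toMul : S.unit K) : Kˣ)) this
  have hmem : ∀ y : rootsOfUnity p K, (y : Kˣ) ∈ S.unit K := fun y =>
    SU_rootsOfUnity_mem K S p hp.out.ne_zero y ((mem_rootsOfUnity _ _).1 y.2)
  have hker : ∀ y : rootsOfUnity p K, (Additive.ofMul (⟨(y : Kˣ), hmem y⟩ : S.unit K)) ∈
      (nrm (1 : AddMonoid.End (Additive (S.unit K))) p).ker := by
    intro y
    rw [AddMonoidHom.mem_ker, SU_nrm_one_eq]
    apply Additive.toMul.injective
    apply Subtype.ext
    exact (mem_rootsOfUnity _ _).1 y.2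
  refine (Nat.card_congr (β := rootsOfUnity p K) ?_).trans hc
  exact
    { toFun := fun x => ⟨((x.1.toMul : S.unit K) : Kˣ), hto x⟩
      invFun := fun y => ⟨Additive.ofMul ⟨(y : Kˣ), hmem y⟩, hker y⟩
      left_inv := fun x => rfl
      right_inv := fun y => rfl }

/-- **Kummer count**: if `μ_p ⊆ K`, then `[E_S : E_S ^ p] = p ^ (rank + #S + 1)`. -/
theorem SU_index_sunit_pow [Finite S] (p : ℕ) [hp : Fact p.Prime] (ζ : K)
    (hζ : IsPrimitiveRoot ζ p) :
    (nrm (1 : AddMonoid.End (Additive (S.unit K))) p).range.index =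
      p ^ (Units.rank K + Nat.card S + 1) := by
  have := SU_sunit_finite K S
  rw [(SU_index_smul (M := Additive (S.unit K)) p).2, SU_sunit_finrank, SU_card_torsion K S p ζ hζ,
    pow_succ]

end Kummer

section Large

variable (K : Type*) [Field K] [NumberField K]

/-- `S` is large: the `S`-class group is trivial, in valuation form. -/
def SU_IsLarge (S : Set (HeightOneSpectrum (𝓞 K))) : Prop :=
  ∀ w : HeightOneSpectrum (𝓞 K), ∃ x : Kˣ,
    (w ∉ S → SU_ord K w (Additive.ofMul x) = -1) ∧
    ∀ v : HeightOneSpectrum (𝓞 K), v ∉ S → v ≠ w → SU_ord K v (Additive.ofMul x) = 0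

variable {K}

theorem SU_IsLarge.mono {S S' : Set (HeightOneSpectrum (𝓞 K))} (h : SU_IsLarge K S)
    (hSS' : S ⊆ S') : SU_IsLarge K S' := by
  intro w
  obtain ⟨x, hx1, hx2⟩ := h w
  exact ⟨x, fun hw => hx1 (fun h' => hw (hSS' h')), fun v hv hvw => hx2 v (fun h' => hv (hSS' h')) hvw⟩

/-- If `S` is large, every finitely supported valuation vector outside `S` is the valuation
vector of an element of `Kˣ`. -/
theorem SU_IsLarge.exists_ord_eq {S : Set (HeightOneSpectrum (𝓞 K))} (h : SU_IsLarge K S)
    (n : HeightOneSpectrum (𝓞 K) →₀ ℤ) :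
    ∃ x : Kˣ, ∀ v : HeightOneSpectrum (𝓞 K), v ∉ S → SU_ord K v (Additive.ofMul x) = n v := by
  classical
  choose x hx1 hx2 using h
  refine ⟨Additive.toMul (∑ w ∈ n.support, (- n w) • Additive.ofMul (x w)), fun v hv => ?_⟩
  rw [ofMul_toMul, map_sum]
  have hterm : ∀ w ∈ n.support, SU_ord K v ((- n w) • Additive.ofMul (x w)) =
      if w = v then n v else 0 := by
    intro w _
    rw [map_zsmul]
    split_ifs with hwv
    · subst hwv
      rw [hx1 w hv, smul_eq_mul]; ring
    · rw [hx2 w v hv (fun h' => hwv h'.symm), smul_zero]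
  rw [Finset.sum_congr rfl hterm, Finset.sum_ite_eq' n.support v]
  split_ifs with hmem
  · rfl
  · exact (Finsupp.notMem_support_iff.1 hmem).symm


variable (K)

/-- representatives of the ideal classes by nonzero integral ideals -/
theorem SU_exists_reps : ∃ J : ClassGroup (𝓞 K) → Ideal (𝓞 K),
    ∀ c, ∃ h : J c ∈ nonZeroDivisors (Ideal (𝓞 K)), ClassGroup.mk0 ⟨J c, h⟩ = c := by
  have : ∀ c : ClassGroup (𝓞 K), ∃ I : Ideal (𝓞 K),
      ∃ h : I ∈ nonZeroDivisors (Ideal (𝓞 K)), ClassGroup.mk0 ⟨I, h⟩ = c := by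
    intro c
    obtain ⟨I, rfl⟩ := ClassGroup.mk0_surjective c
    exact ⟨I.1, I.2, rfl⟩
  choose J hJ using this
  exact ⟨J, hJ⟩

/-- **Enlarging `S` to kill the `S`-class group**: every finite set of primes is contained in a
finite set `S` such that for every prime `w` there is `x ∈ Kˣ` with `ord_w x = -1` (Mathlib's sign:
the multiplicative valuation is `exp (-1)`) and `ord_v x = 0` for all `v ∉ S`, `v ≠ w`. -/
theorem SU_exists_large (S₀ : Set (HeightOneSpectrum (𝓞 K))) (hS₀ : S₀.Finite) :
    ∃ S : Set (HeightOneSpectrum (𝓞 K)), S.Finite ∧ S₀ ⊆ S ∧ SU_IsLarge K S := by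
  classical
  obtain ⟨J, hJ⟩ := SU_exists_reps K
  have hJ0 : ∀ c, J c ≠ 0 := fun c => nonZeroDivisors.ne_zero (hJ c).1
  set S : Set (HeightOneSpectrum (𝓞 K)) := S₀ ∪ ⋃ c, {v | v.asIdeal ∣ J c} with hSdef
  have hSfin : S.Finite := by
    refine hS₀.union (Set.finite_iUnion fun c => ?_)
    exact Ideal.finite_factors (hJ0 c)
  refine ⟨S, hSfin, Set.subset_union_left, fun w => ?_⟩
  -- the class of `w` and the representative of the inverse class
  have hw0 : w.asIdeal ∈ nonZeroDivisors (Ideal (𝓞 K)) := mem_nonZeroDivisors_of_ne_zero w.ne_bot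
  set c := (ClassGroup.mk0 ⟨w.asIdeal, hw0⟩)⁻¹ with hc
  obtain ⟨hJc, hJc'⟩ := hJ c
  have hprod : J c * w.asIdeal ∈ nonZeroDivisors (Ideal (𝓞 K)) :=
    mul_mem hJc hw0
  have h1 : ClassGroup.mk0 ⟨J c * w.asIdeal, hprod⟩ = 1 := by
    have : (⟨J c * w.asIdeal, hprod⟩ : nonZeroDivisors (Ideal (𝓞 K))) =
        ⟨J c, hJc⟩ * ⟨w.asIdeal, hw0⟩ := rfl
    rw [this, map_mul, hJc', hc, inv_mul_cancel]
  rw [ClassGroup.mk0_eq_one_iff] at h1
  obtain ⟨a, ha⟩ := h1
  have ha' : Ideal.span {a} = J c * w.asIdeal := ha.symm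
  have ha0 : a ≠ 0 := by
    rintro rfl
    have : J c * w.asIdeal = ⊥ := by rw [← ha']; simp
    exact (nonZeroDivisors.ne_zero hprod) this
  have ha0' : algebraMap (𝓞 K) K a ≠ 0 := by
    rwa [ne_eq, FaithfulSMul.algebraMap_eq_zero_iff]
  have hnotJ : ∀ v : HeightOneSpectrum (𝓞 K), v ∉ S → ¬ v.asIdeal ∣ J c := by
    intro v hv hdvd
    exact hv (Set.mem_union_right _ (Set.mem_iUnion.2 ⟨c, hdvd⟩))
  refine ⟨Units.mk0 _ ha0', fun hw => ?_, fun v hv hvw => ?_⟩
  · -- valuation at `w`
    have h2 : w.intValuation a = WithZero.exp (-(1 : ℤ)) := by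
      apply le_antisymm
      · have := (w.intValuation_le_pow_iff_dvd a 1).2 (by
          rw [pow_one, ha']; exact Dvd.intro_left _ rfl)
        simpa using this
      · by_contra hlt
        rw [not_le] at hlt
        have h3 : w.intValuation a ≤ WithZero.exp (-((2 : ℕ) : ℤ)) := by
          have hne := w.intValuation_ne_zero a ha0
          obtain ⟨m, hm⟩ := WithZero.ne_zero_iff_exists.1 hne
          rw [← hm] at hlt ⊢
          have h4 : Multiplicative.toAdd m < -1 := by
            have := WithZero.coe_lt_coe.1 hlt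
            exact this
          have h5 : Multiplicative.toAdd m ≤ -2 := by omega
          exact WithZero.coe_le_coe.2 h5
        rw [HeightOneSpectrum.intValuation_le_pow_iff_dvd, ha', pow_two] at h3
        have h6 : w.asIdeal ∣ J c := by
          have hwne : w.asIdeal ≠ 0 := w.ne_bot
          exact (mul_dvd_mul_iff_right hwne).1 h3
        exact hnotJ w hw h6
    have h7 := SU_exp_ord K w (Units.mk0 _ ha0')
    rw [Units.val_mk0, HeightOneSpectrum.valuation_of_algebraMap, h2] at h7
    exact WithZero.exp_injective h7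
  · -- valuation at `v ≠ w`, `v ∉ S`
    have h2 : v.intValuation a = 1 := by
      apply le_antisymm (v.intValuation_le_one a)
      by_contra hlt
      rw [not_le, HeightOneSpectrum.intValuation_lt_one_iff_dvd, ha'] at hlt
      rcases v.prime.dvd_or_dvd hlt with h | h
      · exact hnotJ v hv h
      · have h3 : w.asIdeal ≤ v.asIdeal := Ideal.le_of_dvd h
        have h4 : w.asIdeal = v.asIdeal := w.isMaximal.eq_of_le v.isPrime.ne_top h3
        exact hvw (HeightOneSpectrum.ext h4.symm)
    have h7 := SU_exp_ord K v (Units.mk0 _ ha0')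
    rw [Units.val_mk0, HeightOneSpectrum.valuation_of_algebraMap, h2, ← WithZero.exp_zero] at h7
    exact WithZero.exp_injective h7

end Large

end Fermat.Agent.PT.Units
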