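import Mathlib
import Fermat.Agent.PT.Units.SUnit

/-!
# W3-PT, leaf group PT-UNITS, module U3: the Herbrand quotient of the `S`-units

`L/K` is a Galois extension of number fields of prime degree `p`, unramified at the infinite
places (automatic for odd `p`), `σ` a generator of `Gal(L/K)`, `S` a finite set of primes of `K`,
`SU_above K L S` the set of primes of `L` above `S`, `SU_galEnd S σ` the endomorphism of the
group of `S`-units of `L` induced by `σ`.

* `SU_herbrand_sunits`: the Herbrand quotient of the `S`-units of `L` is `p ^ m / p`, where `m`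
  is the number of `v ∈ S` with exactly one prime of `L` above `v`
  (`= ∏_{v ∈ S} [L_w : K_v] / p`).
* `SU_baseHom_range`: the `σ`-invariant `S`-units of `L` are the `S`-units of `K`.
* `SU_card_above`, `SU_g_eq`: the number of primes above `S`.
* `SU_valuation_gal`, `SU_valuation_map`: valuations and automorphisms.
-/

set_option autoImplicit false
set_option linter.unusedSectionVars false

namespace Fermat.Agent.PT.Units

open IsDedekindDomain NumberField Module Fermat.Agent.S14.HQ
open scoped Pointwise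

section Val

variable {R : Type*} [CommRing R] [IsDedekindDomain R]

/-- ring automorphisms preserve valuations: integral version -/
theorem SU_intValuation_map (e : R ≃+* R) (w w' : HeightOneSpectrum R)
    (h : w'.asIdeal = Ideal.map (e : R →+* R) w.asIdeal) (r : R) :
    w'.intValuation (e r) = w.intValuation r := by
  rcases eq_or_ne r 0 with rfl | hr
  · simp
  have her : e r ≠ 0 := by simpa using hr
  rw [HeightOneSpectrum.intValuation_eq_exp_neg_multiplicity _ her,
    HeightOneSpectrum.intValuation_eq_exp_neg_multiplicity _ hr]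
  congr 3
  let φ : Ideal R ≃* Ideal R :=
    { toFun := Ideal.map (e : R →+* R)
      invFun := Ideal.map (e.symm : R →+* R)
      left_inv := fun I => by
        rw [Ideal.map_map]
        simp
      right_inv := fun I => by
        rw [Ideal.map_map]
        simp
      map_mul' := fun I J => Ideal.map_mul _ I J }
  have h1 : φ w.asIdeal = w'.asIdeal := h.symm
  have h2 : φ (Ideal.span {r}) = Ideal.span {e r} := by
    show Ideal.map (e : R →+* R) (Ideal.span {r}) = _
    rw [Ideal.map_span, Set.image_singleton]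
    rfl
  rw [← h1, ← h2]
  exact multiplicity_map_eq φ

variable {K : Type*} [Field K] [Algebra R K] [IsFractionRing R K]

/-- ring automorphisms preserve valuations -/
theorem SU_valuation_map (e : R ≃+* R) (eK : K ≃+* K)
    (hcomp : ∀ r : R, eK (algebraMap R K r) = algebraMap R K (e r))
    (w w' : HeightOneSpectrum R)
    (h : w'.asIdeal = Ideal.map (e : R →+* R) w.asIdeal) (x : K) :
    w'.valuation K (eK x) = w.valuation K x := by
  obtain ⟨a, b, hb, rfl⟩ := IsFractionRing.div_surjective (A := R) x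
  rw [map_div₀, map_div₀, map_div₀, hcomp, hcomp, HeightOneSpectrum.valuation_of_algebraMap,
    HeightOneSpectrum.valuation_of_algebraMap, HeightOneSpectrum.valuation_of_algebraMap,
    HeightOneSpectrum.valuation_of_algebraMap, SU_intValuation_map e w w' h,
    SU_intValuation_map e w w' h]

end Val

section Gal

variable (K L : Type*) [Field K] [NumberField K] [Field L] [NumberField L] [Algebra K L]

/-- the primes of `L` above a set of primes of `K` -/
def SU_above (S : Set (HeightOneSpectrum (𝓞 K))) : Set (HeightOneSpectrum (𝓞 L)) :=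
  {w | w.under (𝓞 K) ∈ S}

variable {K L}

theorem SU_mem_above (S : Set (HeightOneSpectrum (𝓞 K))) (w : HeightOneSpectrum (𝓞 L)) :
    w ∈ SU_above K L S ↔ w.under (𝓞 K) ∈ S := Iff.rfl

/-- the automorphism of `𝓞 L` induced by `σ` -/
noncomputable def SU_gR (σ : Gal(L/K)) : 𝓞 L ≃+* 𝓞 L :=
  (galRestrict (𝓞 K) K L (𝓞 L) σ).toRingEquiv

theorem SU_gR_algebraMap (σ : Gal(L/K)) (r : 𝓞 K) :
    SU_gR σ (algebraMap (𝓞 K) (𝓞 L) r) = algebraMap (𝓞 K) (𝓞 L) r :=
  (galRestrict (𝓞 K) K L (𝓞 L) σ).commutes r

theorem SU_gR_coe (σ : Gal(L/K)) (r : 𝓞 L) :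
    algebraMap (𝓞 L) L (SU_gR σ r) = σ (algebraMap (𝓞 L) L r) :=
  algebraMap_galRestrict_apply (𝓞 K) σ r

/-- the prime `σ⁻¹ w` -/
noncomputable def SU_pull (σ : Gal(L/K)) (w : HeightOneSpectrum (𝓞 L)) :
    HeightOneSpectrum (𝓞 L) where
  asIdeal := Ideal.comap (SU_gR σ : 𝓞 L →+* 𝓞 L) w.asIdeal
  isPrime := Ideal.comap_isPrime _ _
  ne_bot := (Ideal.eq_bot_of_comap_eq_bot' (SU_gR σ).surjective).mt w.ne_bot

theorem SU_pull_asIdeal (σ : Gal(L/K)) (w : HeightOneSpectrum (𝓞 L)) :
    (SU_pull σ w).asIdeal = Ideal.comap (SU_gR σ : 𝓞 L →+* 𝓞 L) w.asIdeal := rfl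

theorem SU_pull_under (σ : Gal(L/K)) (w : HeightOneSpectrum (𝓞 L)) :
    (SU_pull σ w).under (𝓞 K) = w.under (𝓞 K) := by
  apply HeightOneSpectrum.ext
  ext r
  simp only [HeightOneSpectrum.under_asIdeal, Ideal.under_def, Ideal.mem_comap, SU_pull_asIdeal,
    RingHom.coe_coe, SU_gR_algebraMap]

theorem SU_valuation_gal (σ : Gal(L/K)) (w : HeightOneSpectrum (𝓞 L)) (x : L) :
    w.valuation L (σ x) = (SU_pull σ w).valuation L x := by
  refine SU_valuation_map (SU_gR σ) (σ : L ≃+* L) (fun r => ?_) (SU_pull σ w) w ?_ x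
  · exact (SU_gR_coe σ r).symm
  · rw [SU_pull_asIdeal]
    exact (Ideal.map_comap_of_surjective _ (SU_gR σ).surjective _).symm

variable (S : Set (HeightOneSpectrum (𝓞 K)))

/-- `σ` preserves the `S`-units of `L` (for the primes above `S`). -/
theorem SU_gal_mem (σ : Gal(L/K)) (x : Lˣ) (hx : x ∈ (SU_above K L S).unit L) :
    Units.map (σ : L →* L) x ∈ (SU_above K L S).unit L := by
  intro w hw
  show w.valuation L (σ (x : L)) = 1
  rw [SU_valuation_gal]
  apply hx
  rw [SU_mem_above, SU_pull_under]
  exact hw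

/-- the action of `σ` on the `S`-units of `L` -/
noncomputable def SU_galEnd (σ : Gal(L/K)) : AddMonoid.End (Additive ((SU_above K L S).unit L)) :=
  MonoidHom.toAdditive
    { toFun := fun x => ⟨Units.map (σ : L →* L) x.1, SU_gal_mem S σ x.1 x.2⟩
      map_one' := by ext; simp
      map_mul' := fun a b => by ext; simp }

theorem SU_galEnd_coe (σ : Gal(L/K)) (x : Additive ((SU_above K L S).unit L)) :
    ((((SU_galEnd S σ x).toMul : (SU_above K L S).unit L) : Lˣ) : L) =
      σ (((x.toMul : (SU_above K L S).unit L) : Lˣ) : L) := rfl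

theorem SU_galEnd_iterate (σ : Gal(L/K)) (n : ℕ) (x : Additive ((SU_above K L S).unit L)) :
    ((SU_galEnd S σ)^[n]) x = SU_galEnd S (σ ^ n) x := by
  induction n with
  | zero =>
    apply Additive.toMul.injective
    apply Subtype.ext
    apply Units.ext
    simp [SU_galEnd_coe]
  | succ k ih =>
    rw [Function.iterate_succ_apply', ih]
    apply Additive.toMul.injective
    apply Subtype.ext
    apply Units.ext
    rw [SU_galEnd_coe, SU_galEnd_coe, SU_galEnd_coe, pow_succ']
    rfl

/-- valuations of elements of `K` at a prime of `L` -/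
theorem SU_valuation_up (w : HeightOneSpectrum (𝓞 L)) (x : K) :
    ∃ e : ℕ, e ≠ 0 ∧ w.valuation L (algebraMap K L x) = (w.under (𝓞 K)).valuation K x ^ e := by
  have : w.asIdeal.LiesOver (w.under (𝓞 K)).asIdeal := ⟨rfl⟩
  refine ⟨(w.under (𝓞 K)).asIdeal.ramificationIdx' w.asIdeal, ?_, ?_⟩
  · exact Ideal.IsDedekindDomain.ramificationIdx'_ne_zero_of_liesOver w.asIdeal
      (w.under (𝓞 K)).ne_bot
  · exact (HeightOneSpectrum.valuation_liesOver L (w.under (𝓞 K)) w x).symm

/-- every prime of `K` has a prime of `L` above it -/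
theorem SU_exists_above (v : HeightOneSpectrum (𝓞 K)) :
    ∃ w : HeightOneSpectrum (𝓞 L), w.under (𝓞 K) = v := by
  have := v.isMaximal
  obtain ⟨P, hP, hPv⟩ := Ideal.exists_maximal_ideal_liesOver_of_isIntegral (S := 𝓞 L) v.asIdeal
  have hne : P ≠ ⊥ := Ideal.ne_bot_of_liesOver_of_ne_bot v.ne_bot P
  exact ⟨⟨P, hP.isPrime, hne⟩, HeightOneSpectrum.ext hPv.over.symm⟩

theorem SU_pow_eq_one {a : WithZero (Multiplicative ℤ)} {e : ℕ} (he : e ≠ 0) (h : a ^ e = 1) :
    a = 1 := by
  rcases eq_or_ne a 0 with rfl | ha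
  · rw [zero_pow he] at h
    exact absurd h zero_ne_one
  · obtain ⟨n, rfl⟩ : ∃ n : ℤ, a = WithZero.exp n := by
      obtain ⟨m, hm⟩ := WithZero.ne_zero_iff_exists.1 ha
      exact ⟨Multiplicative.toAdd m, hm.symm⟩
    rw [← WithZero.exp_nsmul, ← WithZero.exp_zero, WithZero.exp_inj] at h
    have : n = 0 := by
      rcases smul_eq_zero.1 h with h | h
      · exact absurd h he
      · exact h
    rw [this, WithZero.exp_zero]

/-- `S`-units of `K` are `S`-units of `L`. -/
theorem SU_base_mem (x : Kˣ) (hx : x ∈ S.unit K) :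
    Units.map (algebraMap K L : K →* L) x ∈ (SU_above K L S).unit L := by
  intro w hw
  obtain ⟨e, -, he⟩ := SU_valuation_up w (x : K)
  show w.valuation L (algebraMap K L (x : K)) = 1
  rw [he, hx (w.under (𝓞 K)) hw, one_pow]

/-- the inclusion of the `S`-units of `K` into those of `L` -/
noncomputable def SU_baseHom : Additive (S.unit K) →+ Additive ((SU_above K L S).unit L) :=
  MonoidHom.toAdditive
    { toFun := fun x => ⟨Units.map (algebraMap K L : K →* L) x.1, SU_base_mem S x.1 x.2⟩
      map_one' := by ext; simp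
      map_mul' := fun a b => by ext; simp }

theorem SU_baseHom_coe (x : Additive (S.unit K)) :
    ((((SU_baseHom (L := L) S x).toMul : (SU_above K L S).unit L) : Lˣ) : L) =
      algebraMap K L (((x.toMul : S.unit K) : Kˣ) : K) := rfl

theorem SU_baseHom_injective : Function.Injective (SU_baseHom (L := L) S) := by
  intro a b hab
  have h1 := congrArg (fun z : Additive ((SU_above K L S).unit L) =>
    (((z.toMul : (SU_above K L S).unit L) : Lˣ) : L)) hab
  simp only [SU_baseHom_coe] at h1
  have h2 := (algebraMap K L).injective h1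
  apply Additive.toMul.injective
  apply Subtype.ext
  exact Units.ext h2

theorem SU_baseHom_range [IsGalois K L] (σ : Gal(L/K))
    (hσ : ∀ τ : Gal(L/K), τ ∈ Subgroup.zpowers σ) :
    (SU_baseHom (L := L) S).range = (del (SU_galEnd S σ)).ker := by
  ext x
  rw [AddMonoidHom.mem_range, AddMonoidHom.mem_ker, del_apply, sub_eq_zero]
  constructor
  · rintro ⟨y, rfl⟩
    apply Additive.toMul.injective
    apply Subtype.ext
    apply Units.ext
    rw [SU_galEnd_coe, SU_baseHom_coe]
    exact σ.commutes _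
  · intro hx
    have h1 : σ (((x.toMul : (SU_above K L S).unit L) : Lˣ) : L) =
        (((x.toMul : (SU_above K L S).unit L) : Lˣ) : L) := by
      rw [← SU_galEnd_coe, hx]
    set xL : L := (((x.toMul : (SU_above K L S).unit L) : Lˣ) : L) with hxL
    have h2 : ∀ τ : Gal(L/K), τ xL = xL := by
      intro τ
      obtain ⟨n, rfl⟩ := Subgroup.mem_zpowers_iff.1 (hσ τ)
      have hfix : σ ∈ MulAction.stabilizer Gal(L/K) xL := h1
      exact (Subgroup.zpow_mem _ hfix n)
    have h3 : xL ∈ (⊥ : IntermediateField K L) := (IsGalois.mem_bot_iff_fixed xL).2 h2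
    obtain ⟨y, hy⟩ := IntermediateField.mem_bot.1 h3
    have hy0 : y ≠ 0 := by
      rintro rfl
      rw [map_zero] at hy
      exact (Units.ne_zero _) hy.symm
    have hyS : Units.mk0 y hy0 ∈ S.unit K := by
      intro v hv
      obtain ⟨w, hw⟩ := SU_exists_above (L := L) v
      obtain ⟨e, he0, he⟩ := SU_valuation_up w y
      have hwS : w ∉ SU_above K L S := by
        show ¬ (w.under (𝓞 K) ∈ S)
        rw [hw]; exact hv
      have := (x.toMul : (SU_above K L S).unit L).2 w hwS
      rw [← hxL, ← hy, he, hw] at this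
      exact SU_pow_eq_one he0 this
    refine ⟨Additive.ofMul ⟨Units.mk0 y hy0, hyS⟩, ?_⟩
    apply Additive.toMul.injective
    apply Subtype.ext
    apply Units.ext
    exact hy

/-- the number of primes of `L` above `v` -/
noncomputable def SU_g (L : Type*) [Field L] [NumberField L] [Algebra K L]
    (v : HeightOneSpectrum (𝓞 K)) : ℕ :=
  (v.asIdeal.primesOver (𝓞 L)).ncard

/-- the projection to the primes below -/
def SU_proj (w : SU_above K L S) : S := ⟨w.1.under (𝓞 K), w.2⟩

/-- the fibre of the projection is the set of primes over `v` -/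
noncomputable def SU_fibreEquiv (v : S) :
    {w : SU_above K L S // SU_proj S w = v} ≃ v.1.asIdeal.primesOver (𝓞 L) where
  toFun w := ⟨w.1.1.asIdeal, w.1.1.isPrime, ⟨by
    have := congrArg (fun u : S => u.1.asIdeal) w.2
    exact this.symm⟩⟩
  invFun P := ⟨⟨⟨P.1, P.2.1, by
      have := P.2.2
      exact Ideal.ne_bot_of_liesOver_of_ne_bot v.1.ne_bot P.1⟩, by
      show HeightOneSpectrum.under (𝓞 K) _ ∈ S
      have h : HeightOneSpectrum.under (𝓞 K) (⟨P.1, P.2.1, by
        have := P.2.2
        exact Ideal.ne_bot_of_liesOver_of_ne_bot v.1.ne_bot P.1⟩ : HeightOneSpectrum (𝓞 L)) = v.1 :=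
        HeightOneSpectrum.ext P.2.2.over.symm
      rw [h]
      exact v.2⟩, Subtype.ext (HeightOneSpectrum.ext P.2.2.over.symm)⟩
  left_inv w := by
    apply Subtype.ext
    apply Subtype.ext
    rfl
  right_inv P := by
    apply Subtype.ext
    rfl

theorem SU_finite_above [Finite S] : Finite (SU_above K L S) := by
  have : ∀ v : S, Finite {w : SU_above K L S // SU_proj S w = v} := fun v =>
    Finite.of_equiv _ (SU_fibreEquiv S v).symm
  exact Finite.of_equiv _ (Equiv.sigmaFiberEquiv (SU_proj (L := L) S))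

theorem SU_card_above [Finite S] :
    Nat.card (SU_above K L S) = ∑ᶠ v : S, SU_g L v.1 := by
  have := Fintype.ofFinite S
  have hfin := SU_finite_above (L := L) S
  have hf : ∀ v : S, Finite {w : SU_above K L S // SU_proj S w = v} := fun v =>
    Finite.of_equiv _ (SU_fibreEquiv S v).symm
  rw [Nat.card_congr (Equiv.sigmaFiberEquiv (SU_proj (L := L) S)).symm, Nat.card_sigma,
    finsum_eq_sum_of_fintype]
  refine Finset.sum_congr rfl fun v _ => ?_
  rw [Nat.card_congr (SU_fibreEquiv S v)]
  exact Nat.card_coe_set_eq _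

theorem SU_g_eq [IsGalois K L] (p : ℕ) (hp : p.Prime) (hdeg : finrank K L = p)
    (v : HeightOneSpectrum (𝓞 K)) : SU_g L v = 1 ∨ SU_g L v = p := by
  have := v.isMaximal
  have h := Ideal.ncard_primesOver_mul_ramificationIdxIn_mul_inertiaDegIn v.asIdeal (𝓞 L) Gal(L/K)
  rw [IsGalois.card_aut_eq_finrank, hdeg] at h
  have hdvd : SU_g L v ∣ p := ⟨_, h.symm⟩
  exact (Nat.dvd_prime hp).1 hdvd

/-- a sum of terms equal to `1` or `p` -/
theorem SU_sum_one_or {ι : Type*} [Fintype ι] (g : ι → ℕ) (p : ℕ)
    (hg : ∀ i, g i = 1 ∨ g i = p) :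
    ∑ i, g i + p * Nat.card {i // g i = 1} = Nat.card {i // g i = 1} + p * Fintype.card ι := by
  classical
  rw [Nat.card_eq_fintype_card, Fintype.card_subtype]
  rw [← Finset.sum_filter_add_sum_filter_not Finset.univ (fun i => g i = 1) g]
  have h1 : ∑ i ∈ Finset.univ.filter (fun i => g i = 1), g i =
      (Finset.univ.filter (fun i => g i = 1)).card := by
    rw [Finset.card_eq_sum_ones]
    exact Finset.sum_congr rfl fun i hi => (Finset.mem_filter.1 hi).2
  have h2 : ∑ i ∈ Finset.univ.filter (fun i => ¬ g i = 1), g i =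
      p * (Finset.univ.filter (fun i => ¬ g i = 1)).card := by
    rw [mul_comm, ← smul_eq_mul, ← Finset.sum_const]
    exact Finset.sum_congr rfl fun i hi =>
      (hg i).resolve_left (Finset.mem_filter.1 hi).2
  have h3 : (Finset.univ.filter (fun i => g i = 1)).card +
      (Finset.univ.filter (fun i => ¬ g i = 1)).card = Fintype.card ι := by
    rw [Finset.card_filter_add_card_filter_not, Finset.card_univ]
  rw [h1, h2, ← h3]
  ring

/-- **Herbrand quotient of the `S`-units** of a cyclic extension `L/K` of prime degree `p`,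
unramified at the infinite places (automatic for odd `p`): `q = p ^ m / p`, `m` the number of
primes in `S` with only one prime of `L` above them (i.e. not totally split). -/
theorem SU_herbrand_sunits [IsGalois K L] [IsUnramifiedAtInfinitePlaces K L]
    (p : ℕ) [hp : Fact p.Prime] (hdeg : finrank K L = p)
    (σ : Gal(L/K)) (hσ : ∀ τ : Gal(L/K), τ ∈ Subgroup.zpowers σ) [Finite S] :
    IsHQ (SU_galEnd (L := L) S σ) p
      ((p : ℚ) ^ Nat.card {v : S // SU_g L v.1 = 1} / (p : ℚ)) := by
  classical
  have hfinS := Fintype.ofFinite S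
  have hfinL : Finite (SU_above K L S) := SU_finite_above S
  have hE : Module.Finite ℤ (Additive ((SU_above K L S).unit L)) :=
    SU_sunit_finite L (SU_above K L S)
  have hK : Module.Finite ℤ (Additive (S.unit K)) := SU_sunit_finite K S
  have hcard : Nat.card Gal(L/K) = p := by rw [IsGalois.card_aut_eq_finrank, hdeg]
  have hσp : σ ^ p = 1 := by rw [← hcard]; exact pow_card_eq_one'
  have hs : ∀ x, ((SU_galEnd (L := L) S σ)^[p]) x = x := by
    intro x
    rw [SU_galEnd_iterate, hσp]
    apply Additive.toMul.injective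
    apply Subtype.ext
    apply Units.ext
    rw [SU_galEnd_coe]
    rfl
  obtain ⟨b, hb1, hb2⟩ := SU_rank_formula p (SU_galEnd (L := L) S σ) hs
  -- the rank of the invariants
  have ha : finrank ℤ (LinearMap.ker (del (SU_galEnd (L := L) S σ)).toIntLinearMap) =
      Units.rank K + Nat.card S := by
    rw [← SU_sunit_finrank K S]
    have hker : LinearMap.ker (del (SU_galEnd (L := L) S σ)).toIntLinearMap =
        LinearMap.range (SU_baseHom (L := L) S).toIntLinearMap := by
      ext x
      exact (SetLike.ext_iff.1 (SU_baseHom_range S σ hσ) x).symm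
    rw [hker]
    exact (LinearEquiv.ofInjective (SU_baseHom (L := L) S).toIntLinearMap
      (SU_baseHom_injective S)).finrank_eq.symm
  -- the rank of the `S`-units of `L`
  have hL : finrank ℤ (Additive ((SU_above K L S).unit L)) =
      Units.rank L + Nat.card (SU_above K L S) := SU_sunit_finrank L (SU_above K L S)
  have hSL : Nat.card (SU_above K L S) + p * Nat.card {v : S // SU_g L v.1 = 1} =
      Nat.card {v : S // SU_g L v.1 = 1} + p * Nat.card S := by
    rw [SU_card_above, finsum_eq_sum_of_fintype, Nat.card_eq_fintype_card (α := S)]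
    exact SU_sum_one_or (fun v : S => SU_g L v.1) p (fun v => SU_g_eq p hp.out hdeg v.1)
  have hinf : Fintype.card (InfinitePlace L) = Fintype.card (InfinitePlace K) * p := by
    rw [IsUnramifiedAtInfinitePlaces.card_infinitePlace K L, hdeg]
  have hrL : Units.rank L = Fintype.card (InfinitePlace L) - 1 := rfl
  have hrK : Units.rank K = Fintype.card (InfinitePlace K) - 1 := rfl
  have hnK : 0 < Fintype.card (InfinitePlace K) := Fintype.card_pos
  have hm1 : Nat.card {v : S // SU_g L v.1 = 1} ≤ Nat.card S :=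
    Nat.card_le_card_of_injective Subtype.val Subtype.val_injective
  rw [ha] at hb1 hb2
  rw [hL, hrL, hinf, hrK] at hb1
  rw [hrK] at hb2
  generalize Fintype.card (InfinitePlace K) = n at hb1 hb2 hnK
  generalize Nat.card (SU_above K L S) = sL at hb1 hSL
  generalize Nat.card {v : S // SU_g L v.1 = 1} = m at hb2 hSL hm1 ⊢
  generalize Nat.card S = sK at hb1 hb2 hSL hm1
  have hp2 : 2 ≤ p := hp.out.two_le
  -- solve for `b`
  have hb : b + m = n + sK := by
    obtain ⟨n', rfl⟩ : ∃ n', n = n' + 1 := ⟨n - 1, by omega⟩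
    obtain ⟨p', rfl⟩ : ∃ p', p = p' + 1 := ⟨p - 1, by omega⟩
    simp only [Nat.add_sub_cancel] at hb1
    have h1 : (n' + 1) * (p' + 1) - 1 = n' + p' * (n' + 1) := by
      have : (n' + 1) * (p' + 1) = n' + p' * (n' + 1) + 1 := by ring
      omega
    rw [h1] at hb1
    have h2 : p' * (n' + 1) + sL = sK + p' * b := by omega
    have h3 : p' * (b + m) = p' * (n' + 1 + sK) := by
      have e1 : p' * (b + m) = p' * b + p' * m := by ring
      have e2 : p' * (n' + 1 + sK) = p' * (n' + 1) + p' * sK := by ring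
      have e3 : (p' + 1) * m = p' * m + m := by ring
      have e4 : (p' + 1) * sK = p' * sK + sK := by ring
      rw [e3, e4] at hSL
      omega
    exact Nat.eq_of_mul_eq_mul_left (by omega) h3
  have hq : (p : ℚ) ^ (n - 1 + sK) / (p : ℚ) ^ b = (p : ℚ) ^ m / (p : ℚ) := by
    have hp0 : (p : ℚ) ≠ 0 := by exact_mod_cast hp.out.ne_zero
    rw [div_eq_div_iff (pow_ne_zero _ hp0) hp0, ← pow_succ, ← pow_add]
    congr 1
    omega
  rw [hq] at hb2
  exact hb2


/-- `SU_herbrand_sunits` for odd `p` (no hypothesis at the infinite places). -/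
theorem SU_herbrand_sunits_odd [IsGalois K L]
    (p : ℕ) [hp : Fact p.Prime] (hp2 : p ≠ 2) (hdeg : finrank K L = p)
    (σ : Gal(L/K)) (hσ : ∀ τ : Gal(L/K), τ ∈ Subgroup.zpowers σ) [Finite S] :
    IsHQ (SU_galEnd (L := L) S σ) p
      ((p : ℚ) ^ Nat.card {v : S // SU_g L v.1 = 1} / (p : ℚ)) := by
  have hodd : Odd (finrank K L) := by
    rw [hdeg]; exact hp.out.odd_of_ne_two hp2
  have : IsUnramifiedAtInfinitePlaces K L := IsUnramifiedAtInfinitePlaces_of_odd_finrank hodd
  exact SU_herbrand_sunits S p hdeg σ hσ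

/-- natural number form of `SU_herbrand_sunits`: `h0 * p = h1 * p ^ m`, both indices finite. -/
theorem SU_herbrand_sunits_nat [IsGalois K L] [IsUnramifiedAtInfinitePlaces K L]
    (p : ℕ) [hp : Fact p.Prime] (hdeg : finrank K L = p)
    (σ : Gal(L/K)) (hσ : ∀ τ : Gal(L/K), τ ∈ Subgroup.zpowers σ) [Finite S] :
    h0 (SU_galEnd (L := L) S σ) p ≠ 0 ∧ h1 (SU_galEnd (L := L) S σ) p ≠ 0 ∧
      h0 (SU_galEnd (L := L) S σ) p * p =
        h1 (SU_galEnd (L := L) S σ) p * p ^ Nat.card {v : S // SU_g L v.1 = 1} := by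
  have h := SU_herbrand_sunits S p hdeg σ hσ
  refine ⟨h.h0_ne_zero, h.h1_ne_zero, ?_⟩
  have e := h.h0_eq
  have hp0 : (p : ℚ) ≠ 0 := by exact_mod_cast hp.out.ne_zero
  have : ((h0 (SU_galEnd (L := L) S σ) p * p : ℕ) : ℚ) =
      ((h1 (SU_galEnd (L := L) S σ) p * p ^ Nat.card {v : S // SU_g L v.1 = 1} : ℕ) : ℚ) := by
    push_cast
    rw [e]
    field_simp
  exact_mod_cast this

end Gal

end Fermat.Agent.PT.Units
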